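/-
GATE-Z (S15) / [MOD-beta] OUTPUT integrator, file 2 (helper91): THE LOCAL DICHOTOMY, abstract core.

`K` a field of characteristic zero, `W : WeierstrassCurve K`, `C` a change of variables, and a
parametrisation `P : Kˣ → (C • W)(K)` of the changed curve in HYPOTHESIS FORM (`hmul`, `hker` as in
`T3/Plug`; in the gate `C • W = tateCurve q`, `P = tateP`).  `Xf : Kˣ → K` is the `x`-coordinate of
`P` off the kernel.  Given the two Vélu sums on `C • W` (binders `hMu`, `hRoot`: the output of T5),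
a point `Q` of exact order `p` on `W` satisfies ONE of:

* `Q = vc (P (ζ^j))`, `p ∤ j`, and `veluC4 W p Q = u⁴ A₄`, `veluC6 W p Q = u⁶ A₆`;
* `Q = vc (P (ζ^i t₀^k))`, `0 < k < p`, and for some `t`, `t^p = q`:
  `veluC4 W p Q = u⁴ B₄ t`, `veluC6 W p Q = u⁶ B₆ t`,

where `vc = S05.vcPointEquiv W C` and `u = C.u`.  Pure algebra (T3 `sum_dichotomy` + covariance).
-/
import Mathlib
import Fermat.Agent.GZ.Tate.T3.Plug
import Fermat.Agent.GZ.Tate.Out.Velu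

set_option autoImplicit false
set_option linter.unusedSectionVars false

noncomputable section

namespace Fermat.Agent.GZ.Tate.Out

open WeierstrassCurve Fermat.Agent.S05

universe u

variable {K : Type u} [Field K] [CharZero K] [DecidableEq K]

/-! ### group theory in `Kˣ` -/

section Units

variable {q ζ : Kˣ} {p : ℕ} [hp : Fact p.Prime]

theorem zeta_pow_not_mem_zpowers (hq : ∀ n : ℤ, q ^ n = 1 → n = 0) (hζ : orderOf ζ = p) {k : ℕ}
    (hk0 : 0 < k) (hkp : k < p) : ζ ^ k ∉ Subgroup.zpowers q := by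
  rintro ⟨n, hn⟩
  have hn' : q ^ n = ζ ^ k := hn
  have h1 : q ^ (n * (p : ℤ)) = 1 := by
    rw [zpow_mul, hn', zpow_natCast, ← pow_mul, mul_comm, pow_mul, ← hζ, pow_orderOf_eq_one,
      one_pow]
  have h2 := hq _ h1
  have hp0 : (p : ℤ) ≠ 0 := by exact_mod_cast hp.out.ne_zero
  have hn0 : n = 0 := by
    rcases mul_eq_zero.mp h2 with h | h
    · exact h
    · exact absurd h hp0
  rw [hn0, zpow_zero] at hn'
  have h3 : orderOf ζ ∣ k := orderOf_dvd_of_pow_eq_one hn'.symm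
  rw [hζ] at h3
  exact absurd (Nat.le_of_dvd hk0 h3) (not_le.mpr hkp)

theorem root_pow_not_mem_zpowers (hq : ∀ n : ℤ, q ^ n = 1 → n = 0) {t : Kˣ} (ht : t ^ p = q)
    {k : ℕ} (hk0 : 0 < k) (hkp : k < p) : t ^ k ∉ Subgroup.zpowers q := by
  rintro ⟨n, hn⟩
  have hn' : q ^ n = t ^ k := hn
  have e1 : q ^ (n * (p : ℤ)) = q ^ (k : ℤ) := by
    rw [zpow_mul, hn', zpow_natCast, zpow_natCast, ← pow_mul, mul_comm, pow_mul, ht]
  have h1 : q ^ (n * (p : ℤ) - k) = 1 := by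
    rw [zpow_sub, e1, mul_inv_cancel]
  have h2 := hq _ h1
  have h3 : (p : ℤ) ∣ k := ⟨n, by linarith⟩
  have h4 : p ∣ k := by exact_mod_cast h3
  exact absurd (Nat.le_of_dvd hk0 h4) (not_le.mpr hkp)

end Units

/-! ### the dichotomy -/

section Core

variable (W : WeierstrassCurve K) (C : VariableChange K)
variable (hΔ : (C • W).Δ ≠ 0)
variable (P : Kˣ → (C • W).toAffine.Point) (hmul : ∀ u v, P (u * v) = P u + P v)
variable {q : Kˣ} (hker : ∀ u, P u = 0 ↔ u ∈ Subgroup.zpowers q)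
variable (hq : ∀ n : ℤ, q ^ n = 1 → n = 0)
variable {p : ℕ} [hp : Fact p.Prime] {ζ t₀ : Kˣ} (hζ : orderOf ζ = p) (ht₀ : t₀ ^ p = q)
variable (Xf : Kˣ → K)
variable (hX : ∀ u : Kˣ, u ∉ Subgroup.zpowers q → ∃ y h, P u = .some (Xf u) y h)

include hX in
theorem veluF4_P {u : Kˣ} (hu : u ∉ Subgroup.zpowers q) :
    veluF4 (C • W) (P u) = veluT (C • W) (Xf u) := by
  obtain ⟨y, h, e⟩ := hX u hu
  rw [e, veluF4_some]

include hX in
theorem veluF6_P {u : Kˣ} (hu : u ∉ Subgroup.zpowers q) :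
    veluF6 (C • W) (P u) = veluU (C • W) (Xf u) := by
  obtain ⟨y, h, e⟩ := hX u hu
  rw [e, veluF6_some]

include hΔ hmul hker hq hζ ht₀ hX in
/-- **the local dichotomy** (abstract form). -/
theorem local_core {A₄ A₆ : K} {B₄ B₆ : Kˣ → K}
    (hMu : (C • W).c₄ + 120 * ∑ k ∈ Finset.Ico 1 p, veluT (C • W) (Xf (ζ ^ k)) = A₄ ∧
      (C • W).c₆ + 252 * ∑ k ∈ Finset.Ico 1 p, veluU (C • W) (Xf (ζ ^ k)) = A₆)
    (hRoot : ∀ t : Kˣ, t ^ p = q →
      (C • W).c₄ + 120 * ∑ k ∈ Finset.Ico 1 p, veluT (C • W) (Xf (t ^ k)) = B₄ t ∧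
      (C • W).c₆ + 252 * ∑ k ∈ Finset.Ico 1 p, veluU (C • W) (Xf (t ^ k)) = B₆ t)
    {Q : W.toAffine.Point} (hQ0 : Q ≠ 0) (hQp : p • Q = 0) :
    (∃ j : ℕ, ¬ p ∣ j ∧ Q = vcPointEquiv W C (P (ζ ^ j)) ∧
        veluC4 W p Q = (C.u : K) ^ 4 * A₄ ∧ veluC6 W p Q = (C.u : K) ^ 6 * A₆) ∨
      ∃ i k : ℕ, 0 < k ∧ k < p ∧ Q = vcPointEquiv W C (P (ζ ^ i * t₀ ^ k)) ∧
        ∃ t : Kˣ, t ^ p = q ∧
          veluC4 W p Q = (C.u : K) ^ 4 * B₄ t ∧ veluC6 W p Q = (C.u : K) ^ 6 * B₆ t := by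
  set QT : (C • W).toAffine.Point := (vcPointEquiv W C).symm Q with hQT
  have hQ_eq : Q = vcPointEquiv W C QT := by rw [hQT, AddEquiv.apply_symm_apply]
  have hQT0 : QT ≠ 0 := by
    intro h0
    apply hQ0
    rw [hQ_eq, h0, map_zero]
  have hQTp : p • QT = 0 := by
    rw [hQT, ← map_nsmul, hQp, map_zero]
  have hC4 : veluC4 W p Q = (C.u : K) ^ 4 * veluC4 (C • W) p QT := by
    rw [hQ_eq, veluC4_vcPointEquiv]
  have hC6 : veluC6 W p Q = (C.u : K) ^ 6 * veluC6 (C • W) p QT := by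
    rw [hQ_eq, veluC6_vcPointEquiv]
  have hs4 : ∀ u : ℕ → Kˣ, (∀ k, 0 < k → k < p → u k ∉ Subgroup.zpowers q) →
      ∑ k ∈ Finset.Ico 1 p, veluF4 (C • W) (P (u k)) =
        ∑ k ∈ Finset.Ico 1 p, veluT (C • W) (Xf (u k)) := by
    intro u hu
    refine Finset.sum_congr rfl fun k hk => ?_
    rw [Finset.mem_Ico] at hk
    exact veluF4_P W C P Xf hX (hu k (by omega) hk.2)
  have hs6 : ∀ u : ℕ → Kˣ, (∀ k, 0 < k → k < p → u k ∉ Subgroup.zpowers q) →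
      ∑ k ∈ Finset.Ico 1 p, veluF6 (C • W) (P (u k)) =
        ∑ k ∈ Finset.Ico 1 p, veluU (C • W) (Xf (u k)) := by
    intro u hu
    refine Finset.sum_congr rfl fun k hk => ?_
    rw [Finset.mem_Ico] at hk
    exact veluF6_P W C P Xf hX (hu k (by omega) hk.2)
  rcases T3.Plug.sum_dichotomy (M := K) hΔ P hmul hker hq hζ ht₀ hQT0 hQTp with
    ⟨⟨j, hj, hQj⟩, hsum⟩ | ⟨i, k, hk0, hkp, hQik, t, ht, -, hsum⟩
  · left
    have hz : ∀ k, 0 < k → k < p → ζ ^ k ∉ Subgroup.zpowers q :=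
      fun k h0 h1 => zeta_pow_not_mem_zpowers hq hζ h0 h1
    refine ⟨j, hj, by rw [hQ_eq, hQj], ?_, ?_⟩
    · rw [hC4, veluC4, hsum (veluF4 (C • W)), hs4 (fun k => ζ ^ k) hz, hMu.1]
    · rw [hC6, veluC6, hsum (veluF6 (C • W)), hs6 (fun k => ζ ^ k) hz, hMu.2]
  · right
    have hz : ∀ k, 0 < k → k < p → t ^ k ∉ Subgroup.zpowers q :=
      fun k h0 h1 => root_pow_not_mem_zpowers hq ht h0 h1
    refine ⟨i, k, hk0, hkp, by rw [hQ_eq, hQik], t, ht, ?_, ?_⟩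
    · rw [hC4, veluC4, hsum (veluF4 (C • W)), hs4 (fun k => t ^ k) hz, (hRoot t ht).1]
    · rw [hC6, veluC6, hsum (veluF6 (C • W)), hs6 (fun k => t ^ k) hz, (hRoot t ht).2]

end Core

end Fermat.Agent.GZ.Tate.Out
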