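/-
GATE-Z (S15) / [MOD-beta] OUTPUT integrator, file 3 (helper91): THE LOCAL DICHOTOMY on a curve
`W` over `K` (complete ultrametric, characteristic zero) with `C • W = tateCurve q`.

Binders (all owned): `TateHom q hq0` = conclusion of `T2.Hom.exists_hom` (P hom, kernel `q^ℤ`,
`P u = (X q u, Y q u)`); `T5Mu q p`, `T5Root q p` = the two Vélu sums (T5, helper37).

Output `local_tate`: a point `Q` of exact order `p` on `W` is `C (X q u, Y q u)` with

* `‖u‖ = 1`, `u ≠ 1`, and `veluC4 W p Q = (C.u p)⁴ E₄(q^p)`, `veluC6 W p Q² = (C.u p)¹² E₆(q^p)²`; or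
* `‖q‖ < ‖u‖ < 1`, and for some `t`, `t^p = q`: `veluC4 W p Q = C.u⁴ E₄(t)`, `veluC6² = C.u¹² E₆(t)²`.
-/
import Mathlib
import Fermat.Agent.GZ.Tate.T2.Hom
import Fermat.Agent.GZ.Tate.T0.Bridge
import Fermat.Agent.S16.LevelOneSeries
import Fermat.Agent.GZ.Tate.Out.LocalCore

set_option autoImplicit false
set_option linter.unusedSectionVars false

noncomputable section

namespace Fermat.Agent.GZ.Tate.Out

open WeierstrassCurve Fermat.Agent.S05 Fermat.Agent.GZ.Tate Fermat.Agent.GZ.Tate.T0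
  Fermat.Agent.S16.L1h67

universe u

variable {K : Type u} [NormedField K] [IsUltrametricDist K] [CompleteSpace K] [CharZero K]
  [DecidableEq K]

/-- the Tate parametrisation as a homomorphism (conclusion of `T2.Hom.exists_hom`). -/
def TateHom (q : K) (hq0 : q ≠ 0) : Prop :=
  ∃ P : Kˣ → (tateCurve q).toAffine.Point,
    (∀ u v, P (u * v) = P u + P v) ∧
    (∀ u, P u = 0 ↔ u ∈ Subgroup.zpowers (Units.mk0 q hq0)) ∧
    ∀ (u : Kˣ), IsAdm q (u : K) → ∃ h, P u = Affine.Point.some (X q u) (Y q u) h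

/-- (T5), quotient by `μ_p`: the Vélu sums over `P(ζ^k)`. -/
def T5Mu (q : K) (p : ℕ) : Prop :=
  ∀ ζ : K, IsPrimitiveRoot ζ p →
    (tateCurve q).c₄ + 120 * ∑ k ∈ Finset.Ico 1 p, veluT (tateCurve q) (X q (ζ ^ k)) =
      (p : K) ^ 4 * ev (q ^ p) e4Z ∧
    (tateCurve q).c₆ + 252 * ∑ k ∈ Finset.Ico 1 p, veluU (tateCurve q) (X q (ζ ^ k)) =
      -((p : K) ^ 6 * ev (q ^ p) e6Z)

/-- (T5), quotient by `<t>`, `t^p = q`: the Vélu sums over `P(t^k)`. -/
def T5Root (q : K) (p : ℕ) : Prop :=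
  ∀ t : K, t ^ p = q →
    (tateCurve q).c₄ + 120 * ∑ k ∈ Finset.Ico 1 p, veluT (tateCurve q) (X q (t ^ k)) =
      ev t e4Z ∧
    (tateCurve q).c₆ + 252 * ∑ k ∈ Finset.Ico 1 p, veluU (tateCurve q) (X q (t ^ k)) =
      -(ev t e6Z)

variable {q : K} (hq0 : q ≠ 0) (hq1 : ‖q‖ < 1)
variable (W : WeierstrassCurve K) (C : VariableChange K) (hC : C • W = tateCurve q)
variable {p : ℕ} [hp : Fact p.Prime]

include hq0 hq1 in
theorem tate_Δ_ne_zero : (tateCurve q).Δ ≠ 0 :=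
  Fermat.Agent.GZ.Tate.T0.pinned_Δ_ne_zero q hq1 hq0

omit [CompleteSpace K] [CharZero K] [DecidableEq K] [IsUltrametricDist K] in
theorem units_pow_eq_of_pow_eq {t : K} (ht : t ^ p = q) (ht0 : t ≠ 0) :
    (Units.mk0 t ht0) ^ p = Units.mk0 q hq0 := by
  apply Units.ext
  rw [Units.val_pow_eq_pow_val, Units.val_mk0, Units.val_mk0, ht]

include hq0 hq1 hC in
/-- **the local dichotomy on `W` with `C • W = tateCurve q`.** -/
theorem local_tate (hP : TateHom q hq0) (hMu : T5Mu q p) (hRoot : T5Root q p)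
    {ζ t₀ : K} (hζ : IsPrimitiveRoot ζ p) (ht₀ : t₀ ^ p = q)
    {Q : W.toAffine.Point} (hQ0 : Q ≠ 0) (hQp : p • Q = 0) :
    (∃ u : K, ‖u‖ = 1 ∧ u ≠ 1 ∧ IsAdm q u ∧
        (∃ h, Q = .some (vcX C (X q u)) (vcY C (X q u) (Y q u)) h) ∧
        veluC4 W p Q = ((C.u : K) * p) ^ 4 * ev (q ^ p) e4Z ∧
        veluC6 W p Q ^ 2 = ((C.u : K) * p) ^ 12 * ev (q ^ p) e6Z ^ 2) ∨
      ∃ u : K, ‖q‖ < ‖u‖ ∧ ‖u‖ < 1 ∧ IsAdm q u ∧
        (∃ h, Q = .some (vcX C (X q u)) (vcY C (X q u) (Y q u)) h) ∧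
        ∃ t : K, t ^ p = q ∧
          veluC4 W p Q = (C.u : K) ^ 4 * ev t e4Z ∧
          veluC6 W p Q ^ 2 = (C.u : K) ^ 12 * ev t e6Z ^ 2 := by
  have hp0 : p ≠ 0 := hp.out.ne_zero
  obtain ⟨PT, hmulT, hkerT, hadmT⟩ := hP
  -- units
  have hζ0 : ζ ≠ 0 := hζ.ne_zero hp0
  have ht₀0 : t₀ ≠ 0 := by
    rintro rfl
    rw [zero_pow hp0] at ht₀
    exact hq0 ht₀.symm
  set qu : Kˣ := Units.mk0 q hq0 with hqu
  set ζu : Kˣ := Units.mk0 ζ hζ0 with hζu
  set tu : Kˣ := Units.mk0 t₀ ht₀0 with htu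
  have hζord : orderOf ζu = p := T3.Plug.orderOf_of_isPrimitiveRoot (by simpa [hζu] using hζ)
  have htu_pow : tu ^ p = qu := units_pow_eq_of_pow_eq hq0 ht₀ ht₀0
  have hqinf : ∀ n : ℤ, qu ^ n = 1 → n = 0 :=
    T3.Plug.zpow_eq_one_of_norm_lt_one (by simpa [hqu] using hq1)
  -- transport the parametrisation to `C • W`
  set P : Kˣ → (C • W).toAffine.Point := fun u => pointCongr hC.symm (PT u) with hPdef
  have hmul : ∀ u v, P (u * v) = P u + P v := by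
    intro u v
    simp only [hPdef]
    rw [hmulT, map_add]
  have hker : ∀ u, P u = 0 ↔ u ∈ Subgroup.zpowers qu := by
    intro u
    simp only [hPdef]
    rw [← hkerT u]
    exact (pointCongr hC.symm).map_eq_zero_iff
  have hX : ∀ u : Kˣ, u ∉ Subgroup.zpowers qu →
      ∃ y h, P u = .some ((fun v : Kˣ => X q (v : K)) u) y h := by
    intro u hu
    have hadm : IsAdm q (u : K) := (T2.Hom.isAdm_iff_not_mem_zpowers hq0 u).mpr hu
    obtain ⟨h, e⟩ := hadmT u hadm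
    refine ⟨Y q u, hC.symm ▸ h, ?_⟩
    simp only [hPdef]
    rw [e, pointCongr_some]
  have hΔ : (C • W).Δ ≠ 0 := by
    rw [hC]; exact tate_Δ_ne_zero hq0 hq1
  -- the Vélu sums on `C • W`
  have hMu' : (C • W).c₄ + 120 * ∑ k ∈ Finset.Ico 1 p,
        veluT (C • W) ((fun v : Kˣ => X q (v : K)) (ζu ^ k)) = (p : K) ^ 4 * ev (q ^ p) e4Z ∧
      (C • W).c₆ + 252 * ∑ k ∈ Finset.Ico 1 p,
        veluU (C • W) ((fun v : Kˣ => X q (v : K)) (ζu ^ k)) = -((p : K) ^ 6 * ev (q ^ p) e6Z) := by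
    have := hMu ζ hζ
    rw [hC]
    simpa [hζu, Units.val_pow_eq_pow_val] using this
  have hRoot' : ∀ t : Kˣ, t ^ p = qu →
      (C • W).c₄ + 120 * ∑ k ∈ Finset.Ico 1 p,
        veluT (C • W) ((fun v : Kˣ => X q (v : K)) (t ^ k)) = ev (t : K) e4Z ∧
      (C • W).c₆ + 252 * ∑ k ∈ Finset.Ico 1 p,
        veluU (C • W) ((fun v : Kˣ => X q (v : K)) (t ^ k)) = -(ev (t : K) e6Z) := by
    intro t ht
    have ht' : (t : K) ^ p = q := by
      have := congrArg (fun v : Kˣ => (v : K)) ht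
      simpa [hqu, Units.val_pow_eq_pow_val] using this
    have := hRoot (t : K) ht'
    rw [hC]
    simpa [Units.val_pow_eq_pow_val] using this
  -- coordinates of `vc (P u)`
  have hcoord : ∀ (u : Kˣ) (v : K), (u : K) = v → u ∉ Subgroup.zpowers qu →
      ∃ h, vcPointEquiv W C (P u) = .some (vcX C (X q v)) (vcY C (X q v) (Y q v)) h := by
    intro u v hv hu
    subst hv
    have hadm : IsAdm q (u : K) := (T2.Hom.isAdm_iff_not_mem_zpowers hq0 u).mpr hu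
    obtain ⟨h, e⟩ := hadmT u hadm
    refine ⟨(vc_nonsingular_iff W C _ _).1 (hC.symm ▸ h), ?_⟩
    simp only [hPdef]
    rw [e, pointCongr_some, vcPointEquiv_some]
  rcases local_core W C hΔ P hmul hker hqinf hζord htu_pow (fun v : Kˣ => X q (v : K)) hX
    hMu' hRoot' hQ0 hQp with ⟨j, hj, hQj, h4, h6⟩ | ⟨i, k, hk0, hkp, hQik, t, ht, h4, h6⟩
  · left
    have hnot : ζu ^ j ∉ Subgroup.zpowers qu := by
      intro hmem
      have h0 : P (ζu ^ j) = 0 := (hker _).mpr hmem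
      rw [h0, map_zero] at hQj
      exact hQ0 hQj
    refine ⟨ζ ^ j, ?_, ?_, ?_, ?_, ?_, ?_⟩
    · exact T3.Plug.norm_eq_one_of_pow_eq_one hp0 (by rw [← pow_mul, mul_comm, pow_mul,
        hζ.pow_eq_one, one_pow])
    · intro h1
      exact hj ((hζ.pow_eq_one_iff_dvd j).mp h1)
    · have := (T2.Hom.isAdm_iff_not_mem_zpowers hq0 (ζu ^ j)).mpr hnot
      simpa [hζu, Units.val_pow_eq_pow_val] using this
    · have hval : ((ζu ^ j : Kˣ) : K) = ζ ^ j := by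
        rw [Units.val_pow_eq_pow_val, hζu, Units.val_mk0]
      obtain ⟨h, e⟩ := hcoord _ _ hval hnot
      rw [hQj]
      exact ⟨h, e⟩
    · rw [h4]; ring
    · rw [h6]; ring
  · right
    have hnot : ζu ^ i * tu ^ k ∉ Subgroup.zpowers qu := by
      intro hmem
      have h0 : P (ζu ^ i * tu ^ k) = 0 := (hker _).mpr hmem
      rw [h0, map_zero] at hQik
      exact hQ0 hQik
    have hval : ((ζu ^ i * tu ^ k : Kˣ) : K) = ζ ^ i * t₀ ^ k := by
      rw [Units.val_mul, Units.val_pow_eq_pow_val, Units.val_pow_eq_pow_val, hζu, htu,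
        Units.val_mk0, Units.val_mk0]
    obtain ⟨hn1, hn2⟩ := T3.Plug.norm_root_pow hp0 hq0 hq1 hζ.pow_eq_one ht₀ i hk0 hkp
    refine ⟨ζ ^ i * t₀ ^ k, hn1, hn2, ?_, ?_, (t : K), ?_, ?_, ?_⟩
    · have := (T2.Hom.isAdm_iff_not_mem_zpowers hq0 (ζu ^ i * tu ^ k)).mpr hnot
      rwa [hval] at this
    · obtain ⟨h, e⟩ := hcoord _ _ hval hnot
      rw [hQik]
      exact ⟨h, e⟩
    · have := congrArg (fun v : Kˣ => (v : K)) ht
      simpa [hqu, Units.val_pow_eq_pow_val] using this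
    · exact h4
    · rw [h6]; ring

end Fermat.Agent.GZ.Tate.Out
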