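/-
GATE-Z (S15) / [MOD-beta] OUTPUT integrator, file 4 (helper91): **`BetaOut p W Q`** (the pinned
output of the elliptic side, `GZ/Mod/Pin.lean`) from the leaves T0–T6.

Binder (one `Prop`, everything else is on main): `TateLeaves p` :=
for every prime `ℓ ≠ p` and every `q : ℂ_[ℓ]`, `0 < ‖q‖ < 1`:
`TateHom q _` (T1 + T2: the Tate parametrisation is a homomorphism with kernel `q^ℤ`),
`T5Mu q p`, `T5Root q p` (T5: the two Vélu sums).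
-/
import Mathlib
import Fermat.Agent.GZ.Mod.Pin
import Fermat.Agent.GZ.Tate.T4.Main
import Fermat.Agent.GZ.Tate.T6.RelQ
import Fermat.Agent.GZ.Tate.Out.LocalTate

set_option autoImplicit false
set_option linter.unusedSectionVars false

noncomputable section

namespace Fermat.Agent.GZ.Tate.Out

open WeierstrassCurve Fermat.Agent.S05 Fermat.Agent.GZ.Tate Fermat.Agent.GZ.Tate.T0
  Fermat.Agent.S16.L1h67 Fermat.Agent.GZ.Mod

open scoped WeierstrassCurve.Affine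

/-- `ℚ̄`. -/
local notation "Qb" => AlgebraicClosure ℚ

/-! ### the rational model of a Galois-fixed point -/

section RatModel

variable (W : WeierstrassCurve ℤ)

/-- the curve over `ℚ`. -/
abbrev EQ : WeierstrassCurve ℚ := W.map (Int.castRingHom ℚ)

theorem exists_rat_model (Q : ((EQ W)⁄Qb).Point)
    (hQfix : ∀ σ : Qb ≃ₐ[ℚ] Qb, σ • Q = Q) (hQ0 : Q ≠ 0) :
    ∃ (x y : ℚ) (h₀ : ((EQ W)⁄ℚ).Nonsingular x y)
      (h : ((EQ W)⁄Qb).Nonsingular (algebraMap ℚ Qb x) (algebraMap ℚ Qb y)),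
      Q = .some _ _ h ∧
      Affine.Point.map (W' := EQ W) (Algebra.ofId ℚ Qb) (.some x y h₀) = Q := by
  rcases T4.exists_rat_coords_of_fixed W Q hQfix with h0 | ⟨x, y, h, hQ⟩
  · exact absurd h0 hQ0
  · have h₀ : ((EQ W)⁄ℚ).Nonsingular x y :=
      ((EQ W).toAffine.baseChange_nonsingular (f := Algebra.ofId ℚ Qb)
        (Algebra.ofId ℚ Qb).injective x y).mp h
    refine ⟨x, y, h₀, h, hQ, ?_⟩
    rw [Affine.Point.map_some, hQ]
    rfl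

end RatModel

/-! ### the leaves -/

/-- the leaves T1 + T2 (`TateHom`) and T5 (`T5Mu`, `T5Root`) at the prime `ℓ`, over `ℂ_[ℓ]`. -/
def TateLeavesAt (ℓ p : ℕ) [Fact ℓ.Prime] : Prop :=
  ∀ (_ : DecidableEq ℂ_[ℓ]) (q : ℂ_[ℓ]) (hq0 : q ≠ 0), ‖q‖ < 1 →
    TateHom q hq0 ∧ T5Mu q p ∧ T5Root q p

/-! ### norms of rational numbers in `ℂ_[ℓ]` -/

section Norm

variable {ℓ : ℕ} [hℓ : Fact ℓ.Prime]

theorem one_lt_norm_of_padicValRat_neg {a : ℚ} (ha : padicValRat ℓ a < 0) :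
    1 < ‖(a : ℂ_[ℓ])‖ := by
  have ha0 : a ≠ 0 := by
    rintro rfl
    simp at ha
  rw [T6.norm_ratCast_padicComplex, padicNorm.eq_zpow_of_nonzero ha0]
  push_cast
  have h1 : (1 : ℝ) < ℓ := by exact_mod_cast hℓ.out.one_lt
  exact one_lt_zpow₀ h1 (by linarith)

theorem padicValRat_jRat_neg (W : WeierstrassCurve ℤ) (hΔ : W.Δ ≠ 0) (hℓΔ : (ℓ : ℤ) ∣ W.Δ)
    (hℓc₄ : ¬ (ℓ : ℤ) ∣ W.c₄) : padicValRat ℓ (jRat W) < 0 := by
  have hc0 : W.c₄ ≠ 0 := by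
    rintro h0
    exact hℓc₄ (h0 ▸ dvd_zero _)
  have hcq : ((W.c₄ : ℤ) : ℚ) ≠ 0 := by exact_mod_cast hc0
  have hΔq : ((W.Δ : ℤ) : ℚ) ≠ 0 := by exact_mod_cast hΔ
  rw [jRat, padicValRat.div (pow_ne_zero 3 hcq) hΔq, padicValRat.pow, padicValRat.of_int,
    padicValRat.of_int]
  have h1 : padicValInt ℓ W.c₄ = 0 := padicValInt.eq_zero_of_not_dvd hℓc₄
  have h2 : 1 ≤ padicValInt ℓ W.Δ := by
    by_contra hcon
    have h0 : padicValInt ℓ W.Δ = 0 := by omega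
    rcases padicValInt.eq_zero_iff.mp h0 with h | h | h
    · exact hℓ.out.ne_one h
    · exact hΔ h
    · exact h hℓΔ
  rw [h1]
  push_cast
  have : (1 : ℤ) ≤ (padicValInt ℓ W.Δ : ℤ) := by exact_mod_cast h2
  linarith

end Norm

/-! ### the local step at a multiplicative prime `ℓ ≠ p` -/

section Local

variable {ℓ : ℕ} [hℓ : Fact ℓ.Prime] {p : ℕ} [hp : Fact p.Prime]
variable (W : WeierstrassCurve ℤ)

theorem baseChange_eq_map_int (K : Type*) [Field K] [Algebra ℚ K] :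
    ((EQ W)⁄K : WeierstrassCurve K) = W.map (Int.castRingHom K) := by
  show (W.map (Int.castRingHom ℚ)).map (algebraMap ℚ K) = W.map (Int.castRingHom K)
  rw [WeierstrassCurve.map_map]
  congr 1
  exact Subsingleton.elim _ _

theorem baseChange_Δ_ne_zero (K : Type*) [Field K] [Algebra ℚ K] [CharZero K] (hΔ : W.Δ ≠ 0) :
    ((EQ W)⁄K : WeierstrassCurve K).Δ ≠ 0 := by
  rw [baseChange_eq_map_int, WeierstrassCurve.map_Δ]
  simpa using hΔ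

theorem baseChange_j (K : Type*) [Field K] [Algebra ℚ K] [CharZero K] (hΔ : W.Δ ≠ 0)
    [hE : ((EQ W)⁄K : WeierstrassCurve K).IsElliptic] :
    ((EQ W)⁄K : WeierstrassCurve K).j = ((jRat W : ℚ) : K) := by
  have h0 := baseChange_Δ_ne_zero W K hΔ
  have hΔ' : ((EQ W)⁄K : WeierstrassCurve K).Δ = ((W.Δ : ℤ) : K) := by
    rw [baseChange_eq_map_int, WeierstrassCurve.map_Δ]; simp
  have hc' : ((EQ W)⁄K : WeierstrassCurve K).c₄ = ((W.c₄ : ℤ) : K) := by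
    rw [baseChange_eq_map_int, WeierstrassCurve.map_c₄]; simp
  rw [WeierstrassCurve.j, Units.val_inv_eq_inv_val, WeierstrassCurve.coe_Δ', hΔ', hc', jRat]
  push_cast
  rw [div_eq_inv_mul]

/-- **the local step**: at a multiplicative prime `ℓ ≠ p`, with `a = j(W)` and `a'` the
`j`-invariant of the Vélu model of `W/<Q>`: `RelQ p a a'`, and either `Q` is in the zero component
at EVERY `A | ℓ` and `v(a') = p v(a)`, or at NO `A | ℓ` and `p v(a') = v(a)`. -/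
theorem local_out (hleaves : TateLeavesAt ℓ p) (hΔ : W.Δ ≠ 0) (hℓΔ : (ℓ : ℤ) ∣ W.Δ)
    (hℓc₄ : ¬ (ℓ : ℤ) ∣ W.c₄) {x y : ℚ} (h₀ : ((EQ W)⁄ℚ).Nonsingular x y)
    (h : ((EQ W)⁄Qb).Nonsingular (algebraMap ℚ Qb x) (algebraMap ℚ Qb y))
    (hQp : p • (Affine.Point.some x y h₀ : ((EQ W)⁄ℚ).Point) = 0) :
    RelQ p (jRat W) (veluJ ((EQ W)⁄ℚ) p (.some x y h₀)) ∧
      (((∀ A : ValuationSubring Qb, A.LiesOverPrime ℓ → W.InZeroComponentAt A (.some _ _ h)) ∧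
          padicValRat ℓ (veluJ ((EQ W)⁄ℚ) p (.some x y h₀)) = p * padicValRat ℓ (jRat W)) ∨
        ((∀ A : ValuationSubring Qb, A.LiesOverPrime ℓ → ¬ W.InZeroComponentAt A (.some _ _ h)) ∧
          p * padicValRat ℓ (veluJ ((EQ W)⁄ℚ) p (.some x y h₀)) = padicValRat ℓ (jRat W))) := by
  classical
  set K := ℂ_[ℓ] with hK
  have hp0 : p ≠ 0 := hp.out.ne_zero
  set g : ℚ →ₐ[ℚ] K := Algebra.ofId ℚ K with hg
  have hgx : ∀ r : ℚ, g r = (r : K) := fun r => by simp [hg]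
  set WK : WeierstrassCurve K := (EQ W)⁄K with hWK
  set Q₀ : ((EQ W)⁄ℚ).Point := .some x y h₀ with hQ₀
  set QK : WK.toAffine.Point := Affine.Point.map (W' := EQ W) g Q₀ with hQK
  have hQK_some : ∃ hns, QK = .some (g x) (g y) hns := ⟨_, Affine.Point.map_some (W' := EQ W) g h₀⟩
  have hQK0 : QK ≠ 0 := by
    obtain ⟨hns, e⟩ := hQK_some
    rw [e]
    exact Affine.Point.some_ne_zero _
  have hQKp : p • QK = 0 := by
    rw [hQK, ← map_nsmul, hQp, map_zero]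
  -- the Tate parameter
  have hval := padicValRat_jRat_neg (ℓ := ℓ) W hΔ hℓΔ hℓc₄
  have haK : 1 < ‖((jRat W : ℚ) : K)‖ := one_lt_norm_of_padicValRat_neg hval
  obtain ⟨q₀, hq0, hq1, -, hE, hj, -⟩ := T0.exists_pinned_j_eq haK
  have hEK : WK.IsElliptic := ⟨(baseChange_Δ_ne_zero W K hΔ).isUnit⟩
  have hjK : WK.j = (tateCurve q₀).j := by
    rw [hj]; exact baseChange_j W K hΔ
  obtain ⟨C, hC⟩ := WeierstrassCurve.exists_variableChange_of_j_eq WK (tateCurve q₀) hjK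
  -- roots
  have hpK : (p : K) ≠ 0 := Nat.cast_ne_zero.mpr hp0
  have hNZ : NeZero (p : K) := ⟨hpK⟩
  obtain ⟨ζ, hζ⟩ := HasEnoughRootsOfUnity.exists_primitiveRoot K p
  obtain ⟨t₀, ht₀⟩ := IsAlgClosed.exists_pow_nat_eq q₀ hp.out.pos
  obtain ⟨hP, hMu, hRoot⟩ := hleaves inferInstance q₀ hq0 hq1
  -- the two invariants in `K`
  have hc4K : ((veluC4 ((EQ W)⁄ℚ) p Q₀ : ℚ) : K) = veluC4 WK p QK := by
    rw [hQK, veluC4_map, hgx]
  have hc6K : ((veluC6 ((EQ W)⁄ℚ) p Q₀ : ℚ) : K) = veluC6 WK p QK := by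
    rw [hQK, veluC6_map, hgx]
  have haq : ((jRat W : ℚ) : K) = T6.jq q₀ := by
    rw [← hj, T0.pinned_j q₀ hq1, T6.jq]
  have hC' : C • (W.map (Int.castRingHom K)) = tateCurve q₀ := by
    rw [← baseChange_eq_map_int]; exact hC
  have hu_ne : (C.u : K) ≠ 0 := C.u.ne_zero
  -- coordinates
  have hcoords : ∀ u : K, (∃ hns, QK = .some (vcX C (X q₀ u)) (vcY C (X q₀ u) (Y q₀ u)) hns) →
      algebraMap ℚ K x = vcX C (X q₀ u) ∧ algebraMap ℚ K y = vcY C (X q₀ u) (Y q₀ u) := by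
    rintro u ⟨hns, e⟩
    obtain ⟨hns', e'⟩ := hQK_some
    rw [e'] at e
    have := Affine.Point.some.inj e
    exact ⟨by rw [← this.1]; rfl, by rw [← this.2]; rfl⟩
  rcases local_tate hq0 hq1 WK C hC hP hMu hRoot hζ ht₀ hQK0 hQKp with
    ⟨u, hu1, hune, hadm, hQu, h4, h6⟩ | ⟨u, hu0, hu1, hadm, hQu, t, ht, h4, h6⟩
  · -- `μ_p` case
    obtain ⟨hx, hy⟩ := hcoords u hQu
    have hT6 := T6.t6_mu_relQ_padicComplex (ℓ := ℓ) (p := p)
      (a := jRat W) (a' := veluJ ((EQ W)⁄ℚ) p Q₀) (c4' := veluC4 ((EQ W)⁄ℚ) p Q₀)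
      (c6' := veluC6 ((EQ W)⁄ℚ) p Q₀) (lam := (C.u : K) * p) hq0 hq1 (mul_ne_zero hu_ne hpK) haq
      (by rw [hc4K, h4]) (by rw [hc6K, h6]) rfl
    refine ⟨hT6.2.1, Or.inl ⟨fun A hA => ?_, hT6.2.2⟩⟩
    have hiff := T4.inZeroComponentAt_iff_norm_eq_one_padicComplex ℓ W hℓc₄ A hA x y h hq0 hq1
      C hC' hx hy (by rw [hu1]; exact hq1) hu1.le hune
      (summable_xTerm_zpow hq0 hq1 hadm.1) (summable_yTerm_zpow hq0 hq1 hadm.1)
    exact hiff.mpr hu1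
  · -- `<t>` case
    obtain ⟨hx, hy⟩ := hcoords u hQu
    have hT6 := T6.t6_root_relQ_padicComplex (ℓ := ℓ) (p := p) hp.out
      (a := jRat W) (a' := veluJ ((EQ W)⁄ℚ) p Q₀) (c4' := veluC4 ((EQ W)⁄ℚ) p Q₀)
      (c6' := veluC6 ((EQ W)⁄ℚ) p Q₀) (lam := (C.u : K)) hq0 hq1 hu_ne haq ht
      (by rw [hc4K, h4]) (by rw [hc6K, h6]) rfl
    refine ⟨hT6.2.1, Or.inr ⟨fun A hA => ?_, hT6.2.2⟩⟩
    have hune : u ≠ 1 := by
      rintro rfl
      rw [norm_one] at hu1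
      exact lt_irrefl _ hu1
    have hiff := T4.inZeroComponentAt_iff_norm_eq_one_padicComplex ℓ W hℓc₄ A hA x y h hq0 hq1
      C hC' hx hy hu0 hu1.le hune
      (summable_xTerm_zpow hq0 hq1 hadm.1) (summable_yTerm_zpow hq0 hq1 hadm.1)
    intro hin
    exact absurd (hiff.mp hin) (ne_of_lt hu1)

end Local

/-! ### the output -/

section Output

variable {p : ℕ} [NeZero p]

/-- **[MOD-beta] OUTPUT**: `BetaOut p W Q` (`GZ/Mod/Pin.lean`) from the binders of S15 (`hp`, `hΔ`,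
`hQfix`, `hQord`, ONE multiplicative prime `ℓ₀ ≠ p`) and the leaves `TateLeavesAt ℓ p`
(T1 + T2 + T5) at the primes `ℓ ≠ p`.  The witness is `a' = veluJ`, the `j`-invariant of the Vélu
model of `W/<Q>`, computed in the rational numbers `x(kQ), y(kQ)`. -/
theorem betaOut_of_leaves (hp : p.Prime) (W : WeierstrassCurve ℤ) (hΔ : W.Δ ≠ 0)
    (Q : ((W.map (Int.castRingHom ℚ))⁄(AlgebraicClosure ℚ)).Point)
    (hQfix : ∀ σ : AlgebraicClosure ℚ ≃ₐ[ℚ] AlgebraicClosure ℚ, σ • Q = Q)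
    (hQord : addOrderOf Q = p)
    {ℓ₀ : ℕ} (hℓ₀ : ℓ₀.Prime) (hℓ₀p : ℓ₀ ≠ p) (hℓ₀Δ : (ℓ₀ : ℤ) ∣ W.Δ) (hℓ₀c₄ : ¬ (ℓ₀ : ℤ) ∣ W.c₄)
    (hleaves : ∀ (ℓ : ℕ) (hℓ : ℓ.Prime), ℓ ≠ p → @TateLeavesAt ℓ p ⟨hℓ⟩) :
    BetaOut p W Q := by
  have : Fact p.Prime := ⟨hp⟩
  have hQ0 : Q ≠ 0 := by
    rintro rfl
    rw [addOrderOf_zero] at hQord
    exact hp.ne_one hQord.symm
  obtain ⟨x, y, h₀, h, hQ, hmap⟩ := exists_rat_model W Q hQfix hQ0
  have hQp : p • (Affine.Point.some x y h₀ : ((EQ W)⁄ℚ).Point) = 0 := by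
    apply Affine.Point.map_injective (W' := EQ W) (f := Algebra.ofId ℚ Qb)
    rw [map_nsmul, hmap, map_zero, ← hQord]
    exact addOrderOf_nsmul_eq_zero Q
  refine ⟨veluJ ((EQ W)⁄ℚ) p (.some x y h₀), ?_, ?_⟩
  · have : Fact ℓ₀.Prime := ⟨hℓ₀⟩
    exact (local_out W (hleaves ℓ₀ hℓ₀ hℓ₀p) hΔ hℓ₀Δ hℓ₀c₄ h₀ h hQp).1
  · intro ℓ' hℓ' hℓ'p hℓ'Δ hℓ'c₄ A hA
    have : Fact ℓ'.Prime := ⟨hℓ'⟩
    have hloc := (local_out W (hleaves ℓ' hℓ' hℓ'p) hΔ hℓ'Δ hℓ'c₄ h₀ h hQp).2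
    subst hQ
    rcases hloc with ⟨hin, hv⟩ | ⟨hnin, hv⟩
    · exact ⟨fun _ => hv, fun hn => absurd (hin A hA) hn⟩
    · exact ⟨fun hi => absurd hi (hnin A hA), fun _ => hv⟩

end Output

end Fermat.Agent.GZ.Tate.Out
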