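/-
GATE-Z (S15) / [MOD-beta] OUTPUT integrator, file 5 (helper91): the binder `TateLeavesAt ℓ p` of
`Out/Main.betaOut_of_leaves` from the leaves ON MAIN:

* `TateHom`  ⟸ `T2.Hom.exists_hom` (helper43), binders `hns` (T1) + `hgen` (T2-D);
* `T5Mu`, `T5Root` ⟸ `T5.velu_mu_ev`, `T5.velu_root_ev` (helper37), binders `T5.I2`, `T5.I4`.

`TateBindersAt q` collects EXACTLY these four named binders at one `q`; `betaOut_of_binders` is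
`BetaOut p W Q` (Pin verbatim) from the binders of S15 and `TateBindersAt q` for `q : ℂ_[ℓ]`,
`0 < ‖q‖ < 1`, `ℓ ≠ p` prime.
-/
import Mathlib
import Fermat.Agent.GZ.Tate.Out.Main
import Fermat.Agent.GZ.Tate.T2.Hom
import Fermat.Agent.GZ.Tate.T5.VeluBridge

set_option autoImplicit false
set_option linter.unusedSectionVars false

noncomputable section

namespace Fermat.Agent.GZ.Tate.Out

open WeierstrassCurve Fermat.Agent.GZ.Tate Fermat.Agent.GZ.Tate.T0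
  Fermat.Agent.S16.L1h67 Fermat.Agent.GZ.Mod

open scoped WeierstrassCurve.Affine

/-- the four open binders of the leaves T1 (`hns`), T2 (`hgen`), T5 (`I2`, `I4`) at `q`. -/
def TateBindersAt {K : Type*} [NormedField K] [IsUltrametricDist K] [CompleteSpace K] (q : K) :
    Prop :=
  (∀ u : K, IsAdm q u → (tateCurve q).toAffine.Nonsingular (X q u) (Y q u)) ∧
  (∀ u v : K, IsAdm q u → IsAdm q v → IsAdm q (u * v) → X q u ≠ X q v →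
    T2.ColRel (X q u) (Y q u) (X q v) (Y q v) (X q (u * v)) (Y q (u * v)) ∧
      T2.SumRel (X q u) (Y q u) (X q v) (Y q v) (X q (u * v))) ∧
  T5.I2 q ∧ T5.I4 q

section Leaves

variable {K : Type*} [NormedField K] [IsUltrametricDist K] [CompleteSpace K] [CharZero K]
  [DecidableEq K]

theorem tateHom_of_binders {q : K} (hq0 : q ≠ 0) (hq1 : ‖q‖ < 1) (h : TateBindersAt q) :
    TateHom q hq0 := by
  obtain ⟨P, h1, h2, h3⟩ := T2.Hom.exists_hom q h.1 h.2.1 hq0 hq1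
  exact ⟨P, h1, h2, fun u hu => ⟨h.1 u hu, h3 u hu⟩⟩

theorem t5Mu_of_binders {q : K} (hq0 : q ≠ 0) (hq1 : ‖q‖ < 1) (h : TateBindersAt q) {p : ℕ}
    (hp : 0 < p) : T5Mu q p := by
  intro ζ hζ
  obtain ⟨h4, h6, -⟩ := T5.velu_mu_ev hq0 hq1 hζ hp h.2.2.1 h.2.2.2
  exact ⟨h4, h6⟩

theorem t5Root_of_binders {q : K} (hq0 : q ≠ 0) (hq1 : ‖q‖ < 1) (h : TateBindersAt q) {p : ℕ}
    (hp : 0 < p) : T5Root q p := by
  intro t ht
  subst ht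
  have ht0 : t ≠ 0 := by
    rintro rfl
    exact hq0 (zero_pow hp.ne')
  have ht1 : ‖t‖ < 1 := by
    by_contra hcon
    rw [not_lt] at hcon
    rw [norm_pow] at hq1
    exact absurd hq1 (not_lt.mpr (one_le_pow₀ hcon))
  obtain ⟨h4, h6, -⟩ := T5.velu_root_ev ht0 ht1 hp h.2.2.1 h.2.2.2
  exact ⟨h4, h6⟩

end Leaves

theorem tateLeavesAt_of_binders (ℓ p : ℕ) [Fact ℓ.Prime] (hp : 0 < p)
    (h : ∀ q : ℂ_[ℓ], q ≠ 0 → ‖q‖ < 1 → TateBindersAt q) : TateLeavesAt ℓ p := by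
  intro _ q hq0 hq1
  exact ⟨tateHom_of_binders hq0 hq1 (h q hq0 hq1), t5Mu_of_binders hq0 hq1 (h q hq0 hq1) hp,
    t5Root_of_binders hq0 hq1 (h q hq0 hq1) hp⟩

/-- **[MOD-beta] OUTPUT, plugged**: `BetaOut p W Q` from the binders of S15 and the four named
binders `hns`, `hgen`, `I2`, `I4` over `ℂ_[ℓ]`, `ℓ ≠ p`. -/
theorem betaOut_of_binders {p : ℕ} [NeZero p] (hp : p.Prime) (W : WeierstrassCurve ℤ)
    (hΔ : W.Δ ≠ 0)
    (Q : ((W.map (Int.castRingHom ℚ))⁄(AlgebraicClosure ℚ)).Point)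
    (hQfix : ∀ σ : AlgebraicClosure ℚ ≃ₐ[ℚ] AlgebraicClosure ℚ, σ • Q = Q)
    (hQord : addOrderOf Q = p)
    {ℓ₀ : ℕ} (hℓ₀ : ℓ₀.Prime) (hℓ₀p : ℓ₀ ≠ p) (hℓ₀Δ : (ℓ₀ : ℤ) ∣ W.Δ) (hℓ₀c₄ : ¬ (ℓ₀ : ℤ) ∣ W.c₄)
    (hbind : ∀ (ℓ : ℕ) (hℓ : ℓ.Prime), ℓ ≠ p →
      ∀ q : @PadicComplex ℓ ⟨hℓ⟩, q ≠ 0 → ‖q‖ < 1 → TateBindersAt q) :
    BetaOut p W Q :=
  betaOut_of_leaves hp W hΔ Q hQfix hQord hℓ₀ hℓ₀p hℓ₀Δ hℓ₀c₄
    (fun ℓ hℓ hℓp => @tateLeavesAt_of_binders ℓ p ⟨hℓ⟩ hp.pos (hbind ℓ hℓ hℓp))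

end Fermat.Agent.GZ.Tate.Out
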