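/-
GATE-Z (S15) / [MOD-beta] OUTPUT integrator, file 6 (helper91): `hns` and `hgen` DISCHARGED.

* `hns`  = `Weq.nonsingular` (helper71 `Weq/Closed.lean`, binder-free);
* `hgen` = `T2.Main.hgen` (helper21 `T2/Main.lean`) at the bridge `T2.WpY.wpY_at` (helper29).

So `BetaOut p W Q` (Pin verbatim) is a theorem modulo EXACTLY the two binders `T5.I2 q`, `T5.I4 q`
(helper72, `T5D`) over `ℂ_[ℓ]`, `ℓ ≠ p`.
-/
import Mathlib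
import Fermat.Agent.GZ.Tate.Out.Plug
import Fermat.Agent.GZ.Tate.Weq.Closed
import Fermat.Agent.GZ.Tate.T2.Main
import Fermat.Agent.GZ.Tate.T2.WpY

set_option autoImplicit false
set_option linter.unusedSectionVars false

noncomputable section

namespace Fermat.Agent.GZ.Tate.Out

open WeierstrassCurve Fermat.Agent.GZ.Tate Fermat.Agent.GZ.Mod

open scoped WeierstrassCurve.Affine

/-- the bridge `ComplexAdd.Bridge` (= `Weq.WpYAt`), a theorem (helper29 `T2/WpY.lean`). -/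
theorem complexAdd_bridge : T2.ComplexAdd.Bridge :=
  fun T z hz hzZ => T2.WpY.wpY_at T z hz hzZ

universe v

theorem tateBindersAt_of_I24 {K : Type v} [NormedField K] [IsUltrametricDist K] [CompleteSpace K]
    {q : K} (hq0 : q ≠ 0) (hq1 : ‖q‖ < 1) (h2 : T5.I2 q) (h4 : T5.I4 q) : TateBindersAt q :=
  ⟨Weq.nonsingular hq0 hq1, T2.Main.hgen complexAdd_bridge hq0 hq1, h2, h4⟩

/-- **[MOD-beta] OUTPUT**: `BetaOut p W Q` from the binders of S15 and the two identities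
`I2` (`D²X = 6X² + X + 2a₄`), `I4` (`D⁴X = …`) over `ℂ_[ℓ]`, `ℓ ≠ p`. -/
theorem betaOut_of_I24 {p : ℕ} [NeZero p] (hp : p.Prime) (W : WeierstrassCurve ℤ)
    (hΔ : W.Δ ≠ 0)
    (Q : ((W.map (Int.castRingHom ℚ))⁄(AlgebraicClosure ℚ)).Point)
    (hQfix : ∀ σ : AlgebraicClosure ℚ ≃ₐ[ℚ] AlgebraicClosure ℚ, σ • Q = Q)
    (hQord : addOrderOf Q = p)
    {ℓ₀ : ℕ} (hℓ₀ : ℓ₀.Prime) (hℓ₀p : ℓ₀ ≠ p) (hℓ₀Δ : (ℓ₀ : ℤ) ∣ W.Δ) (hℓ₀c₄ : ¬ (ℓ₀ : ℤ) ∣ W.c₄)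
    (hI : ∀ (ℓ : ℕ) (hℓ : ℓ.Prime), ℓ ≠ p →
      ∀ q : @PadicComplex ℓ ⟨hℓ⟩, q ≠ 0 → ‖q‖ < 1 → T5.I2 q ∧ T5.I4 q) :
    BetaOut p W Q :=
  betaOut_of_binders hp W hΔ Q hQfix hQord hℓ₀ hℓ₀p hℓ₀Δ hℓ₀c₄
    (fun ℓ hℓ hℓp q hq0 hq1 =>
      @tateBindersAt_of_I24 (@PadicComplex ℓ ⟨hℓ⟩) _ _ _ q hq0 hq1 (hI ℓ hℓ hℓp q hq0 hq1).1
        (hI ℓ hℓ hℓp q hq0 hq1).2)

end Fermat.Agent.GZ.Tate.Out
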