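/-
GATE-Z (S15) / [MOD-beta] OUTPUT, FINAL (helper91): **`BetaOut p W Q` is a THEOREM** from the
binders of S15 alone (`hp`, `hΔ`, `hQfix`, `hQord` and ONE multiplicative prime `ℓ₀ ≠ p`).

All four leaf binders of `Out/Plug.TateBindersAt` are discharged on main:

* `hns`  : helper71 `Weq.nonsingular` (`Weq/Closed.lean`);
* `hgen` : helper21 `T2.Main.hgen` at helper29 `T2.WpY.wpY_at`   (`Out/Plug2.lean`);
* `I2`, `I4` : helper68 `WeqD.i2`, `WeqD.i4` (`WeqD/Plug.lean`).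
-/
import Mathlib
import Fermat.Agent.GZ.Tate.Out.Plug2
import Fermat.Agent.GZ.Tate.WeqD.Plug

set_option autoImplicit false
set_option linter.unusedSectionVars false

noncomputable section

namespace Fermat.Agent.GZ.Tate.Out

open WeierstrassCurve Fermat.Agent.GZ.Tate Fermat.Agent.GZ.Mod

open scoped WeierstrassCurve.Affine

universe v

/-- the four leaf binders hold over every complete ultrametric field of characteristic zero. -/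
theorem tateBindersAt {K : Type v} [NormedField K] [IsUltrametricDist K] [CompleteSpace K]
    [CharZero K] {q : K} (hq0 : q ≠ 0) (hq1 : ‖q‖ < 1) : TateBindersAt q :=
  tateBindersAt_of_I24 hq0 hq1 (WeqD.i2 hq0 hq1)
    (WeqD.i4 hq0 hq1 (by exact_mod_cast (by norm_num : (6 : ℕ) ≠ 0)))

/-- the Tate leaves (T1 + T2 + T5) at every prime `ℓ`. -/
theorem tateLeavesAt (ℓ p : ℕ) [Fact ℓ.Prime] (hp : 0 < p) : TateLeavesAt ℓ p :=
  tateLeavesAt_of_binders ℓ p hp (fun _ hq0 hq1 => tateBindersAt hq0 hq1)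

/-- **[MOD-beta] OUTPUT, binder-free**: the pinned statement `Mod.BetaOut p W Q`
(`GZ/Mod/Pin.lean`) from the binders of S15. -/
theorem betaOut {p : ℕ} [NeZero p] (hp : p.Prime) (W : WeierstrassCurve ℤ)
    (hΔ : W.Δ ≠ 0)
    (Q : ((W.map (Int.castRingHom ℚ))⁄(AlgebraicClosure ℚ)).Point)
    (hQfix : ∀ σ : AlgebraicClosure ℚ ≃ₐ[ℚ] AlgebraicClosure ℚ, σ • Q = Q)
    (hQord : addOrderOf Q = p)
    {ℓ₀ : ℕ} (hℓ₀ : ℓ₀.Prime) (hℓ₀p : ℓ₀ ≠ p) (hℓ₀Δ : (ℓ₀ : ℤ) ∣ W.Δ)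
    (hℓ₀c₄ : ¬ (ℓ₀ : ℤ) ∣ W.c₄) :
    BetaOut p W Q :=
  betaOut_of_leaves hp W hΔ Q hQfix hQord hℓ₀ hℓ₀p hℓ₀Δ hℓ₀c₄
    (fun ℓ hℓ _ => @tateLeavesAt ℓ p ⟨hℓ⟩ hp.pos)

/-- the same with `ℓ₀ = 2` in the spelling of the S15 binders `h2Δ`, `h2c₄`. -/
theorem betaOut_two {p : ℕ} [NeZero p] (hp : p.Prime) (hp2 : p ≠ 2) (W : WeierstrassCurve ℤ)
    (hΔ : W.Δ ≠ 0)
    (Q : ((W.map (Int.castRingHom ℚ))⁄(AlgebraicClosure ℚ)).Point)
    (hQfix : ∀ σ : AlgebraicClosure ℚ ≃ₐ[ℚ] AlgebraicClosure ℚ, σ • Q = Q)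
    (hQord : addOrderOf Q = p)
    (h2Δ : (2 : ℤ) ∣ W.Δ) (h2c₄ : ¬ (2 : ℤ) ∣ W.c₄) :
    BetaOut p W Q :=
  betaOut hp W hΔ Q hQfix hQord Nat.prime_two (Ne.symm hp2) (by exact_mod_cast h2Δ)
    (by exact_mod_cast h2c₄)

end Fermat.Agent.GZ.Tate.Out
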