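/-
GATE-Z (S15) / [MOD-beta] OUTPUT integrator, file 1 (helper91): VÉLU'S FORMULAS as functions.

For a Weierstrass curve `W` over a field `F` and a point `Q` (of order `p`):

* `veluT W x = 6x² + b₂x + b₄`,  `veluU W x = b₂·veluT W x + 12(10x³ + 2b₂x² + 3b₄x + b₆)`
  (Vélu's `t_R` and `b₂ t_R + 12 w_R`, as functions of the `x`-coordinate);
* `veluF4 W`, `veluF6 W : W.Point → F` (value `0` at the origin);
* `veluC4 W p Q = c₄ + 120 ∑_{k=1}^{p-1} veluF4 (k • Q)`, `veluC6 W p Q = c₆ + 252 ∑ veluF6 (k • Q)`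
  (`= c₄ + 240 t`, `c₆ + 504 (b₂ t + 12 w)` of the Vélu model of `W/<Q>`: no halving);
* `veluJ W p Q = 1728 c₄'³ / (c₄'³ - c₆'²)`.

COVARIANCE under a change of variables `C` (`vcPointEquiv W C : (C • W).Point ≃+ W.Point` of
`S05/VarChange`): `veluF4 W (vc R) = u⁴ veluF4 (C • W) R`, `veluF6 … = u⁶ …`, hence
`veluC4 W p (vc Q) = u⁴ veluC4 (C • W) p Q`, `veluC6 … = u⁶ …`.
BASE CHANGE along `Point.map f`: `veluC4 (W⁄K) p (map f Q) = f (veluC4 (W⁄F) p Q)`.
-/
import Mathlib
import Fermat.Agent.S05.VarChange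

set_option autoImplicit false
set_option linter.unusedSectionVars false

noncomputable section

namespace Fermat.Agent.GZ.Tate.Out

open WeierstrassCurve Fermat.Agent.S05

section Defs

variable {F : Type*} [Field F]

/-- Vélu's `t_R = 6x² + b₂x + b₄` as a function of `x = x(R)`. -/
def veluT (W : WeierstrassCurve F) (x : F) : F := 6 * x ^ 2 + W.b₂ * x + W.b₄

/-- `b₂ t_R + 12 w_R`, `w_R = 10x³ + 2b₂x² + 3b₄x + b₆`, as a function of `x = x(R)`. -/
def veluU (W : WeierstrassCurve F) (x : F) : F :=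
  W.b₂ * veluT W x + 12 * (10 * x ^ 3 + 2 * W.b₂ * x ^ 2 + 3 * W.b₄ * x + W.b₆)

/-- `veluT` at a point (`0` at the origin). -/
def veluF4 (W : WeierstrassCurve F) : W.toAffine.Point → F
  | .zero => 0
  | .some x _ _ => veluT W x

/-- `veluU` at a point (`0` at the origin). -/
def veluF6 (W : WeierstrassCurve F) : W.toAffine.Point → F
  | .zero => 0
  | .some x _ _ => veluU W x

@[simp] theorem veluF4_zero (W : WeierstrassCurve F) : veluF4 W 0 = 0 := rfl

@[simp] theorem veluF6_zero (W : WeierstrassCurve F) : veluF6 W 0 = 0 := rfl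

@[simp] theorem veluF4_some (W : WeierstrassCurve F) {x y : F} (h : W.toAffine.Nonsingular x y) :
    veluF4 W (.some x y h) = veluT W x := rfl

@[simp] theorem veluF6_some (W : WeierstrassCurve F) {x y : F} (h : W.toAffine.Nonsingular x y) :
    veluF6 W (.some x y h) = veluU W x := rfl

variable [DecidableEq F]

/-- `c₄` of the Vélu model of `W/<Q>`. -/
def veluC4 (W : WeierstrassCurve F) (p : ℕ) (Q : W.toAffine.Point) : F :=
  W.c₄ + 120 * ∑ k ∈ Finset.Ico 1 p, veluF4 W (k • Q)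

/-- `c₆` of the Vélu model of `W/<Q>`. -/
def veluC6 (W : WeierstrassCurve F) (p : ℕ) (Q : W.toAffine.Point) : F :=
  W.c₆ + 252 * ∑ k ∈ Finset.Ico 1 p, veluF6 W (k • Q)

/-- the `j`-invariant of the Vélu model of `W/<Q>`. -/
def veluJ (W : WeierstrassCurve F) (p : ℕ) (Q : W.toAffine.Point) : F :=
  1728 * veluC4 W p Q ^ 3 / (veluC4 W p Q ^ 3 - veluC6 W p Q ^ 2)

end Defs

/-! ### covariance under a change of variables -/

section Covariance

variable {F : Type*} [Field F] (W : WeierstrassCurve F) (C : VariableChange F)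

theorem veluT_vcX (x : F) : veluT W (vcX C x) = (C.u : F) ^ 4 * veluT (C • W) x := by
  have hu : (C.u : F) ≠ 0 := C.u.ne_zero
  rw [veluT, veluT, variableChange_b₂, variableChange_b₄, vcX, Units.val_inv_eq_inv_val]
  field_simp
  ring

theorem veluU_vcX (x : F) : veluU W (vcX C x) = (C.u : F) ^ 6 * veluU (C • W) x := by
  have hu : (C.u : F) ≠ 0 := C.u.ne_zero
  rw [veluU, veluU, veluT, veluT, variableChange_b₂, variableChange_b₄, variableChange_b₆, vcX,
    Units.val_inv_eq_inv_val]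
  field_simp
  ring

variable [DecidableEq F]

theorem veluF4_vcPointEquiv (R : (C • W).toAffine.Point) :
    veluF4 W (vcPointEquiv W C R) = (C.u : F) ^ 4 * veluF4 (C • W) R := by
  rcases R with _ | ⟨x, y, h⟩
  · show veluF4 W (vcPointEquiv W C 0) = (C.u : F) ^ 4 * veluF4 (C • W) 0
    rw [vcPointEquiv_zero, veluF4_zero, veluF4_zero, mul_zero]
  · rw [vcPointEquiv_some, veluF4_some, veluF4_some, veluT_vcX]

theorem veluF6_vcPointEquiv (R : (C • W).toAffine.Point) :
    veluF6 W (vcPointEquiv W C R) = (C.u : F) ^ 6 * veluF6 (C • W) R := by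
  rcases R with _ | ⟨x, y, h⟩
  · show veluF6 W (vcPointEquiv W C 0) = (C.u : F) ^ 6 * veluF6 (C • W) 0
    rw [vcPointEquiv_zero, veluF6_zero, veluF6_zero, mul_zero]
  · rw [vcPointEquiv_some, veluF6_some, veluF6_some, veluU_vcX]

/-- **covariance of `c₄'`**. -/
theorem veluC4_vcPointEquiv (p : ℕ) (Q : (C • W).toAffine.Point) :
    veluC4 W p (vcPointEquiv W C Q) = (C.u : F) ^ 4 * veluC4 (C • W) p Q := by
  have hu : (C.u : F) ≠ 0 := C.u.ne_zero
  rw [veluC4, veluC4, variableChange_c₄, Units.val_inv_eq_inv_val, mul_add, Finset.mul_sum,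
    Finset.mul_sum, Finset.mul_sum]
  congr 1
  · field_simp
  · refine Finset.sum_congr rfl fun k _ => ?_
    rw [← map_nsmul, veluF4_vcPointEquiv]
    ring

/-- **covariance of `c₆'`**. -/
theorem veluC6_vcPointEquiv (p : ℕ) (Q : (C • W).toAffine.Point) :
    veluC6 W p (vcPointEquiv W C Q) = (C.u : F) ^ 6 * veluC6 (C • W) p Q := by
  have hu : (C.u : F) ≠ 0 := C.u.ne_zero
  rw [veluC6, veluC6, variableChange_c₆, Units.val_inv_eq_inv_val, mul_add, Finset.mul_sum,
    Finset.mul_sum, Finset.mul_sum]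
  congr 1
  · field_simp
  · refine Finset.sum_congr rfl fun k _ => ?_
    rw [← map_nsmul, veluF6_vcPointEquiv]
    ring

end Covariance

/-! ### transport along an equality of curves -/

section Congr

variable {F : Type*} [Field F] [DecidableEq F]

theorem veluC4_pointCongr {W₁ W₂ : WeierstrassCurve F} (h : W₁ = W₂) (p : ℕ)
    (Q : W₁.toAffine.Point) : veluC4 W₂ p (pointCongr h Q) = veluC4 W₁ p Q := by
  subst h
  have : pointCongr (rfl : W₁ = W₁) Q = Q := by
    rcases Q with _ | ⟨x, y, hxy⟩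
    · exact pointCongr_zero rfl
    · exact pointCongr_some rfl hxy
  rw [this]

theorem veluC6_pointCongr {W₁ W₂ : WeierstrassCurve F} (h : W₁ = W₂) (p : ℕ)
    (Q : W₁.toAffine.Point) : veluC6 W₂ p (pointCongr h Q) = veluC6 W₁ p Q := by
  subst h
  have : pointCongr (rfl : W₁ = W₁) Q = Q := by
    rcases Q with _ | ⟨x, y, hxy⟩
    · exact pointCongr_zero rfl
    · exact pointCongr_some rfl hxy
  rw [this]

end Congr

/-! ### base change -/

section BaseChange

variable {R : Type*} [CommRing R] (W' : WeierstrassCurve R)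
variable {F K : Type*} [Field F] [Field K] [Algebra R F] [Algebra R K] [DecidableEq F]
  [DecidableEq K] (f : F →ₐ[R] K)

theorem veluT_baseChange (x : F) : veluT (W'⁄K) (f x) = f (veluT (W'⁄F) x) := by
  have hb₂ : (W'⁄K).b₂ = f ((W'⁄F).b₂) := by
    rw [baseChange, baseChange, map_b₂, map_b₂, ← f.commutes]
  have hb₄ : (W'⁄K).b₄ = f ((W'⁄F).b₄) := by
    rw [baseChange, baseChange, map_b₄, map_b₄, ← f.commutes]
  rw [veluT, veluT, hb₂, hb₄]
  simp only [map_add, map_mul, map_pow, map_ofNat]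

theorem veluU_baseChange (x : F) : veluU (W'⁄K) (f x) = f (veluU (W'⁄F) x) := by
  have hb₂ : (W'⁄K).b₂ = f ((W'⁄F).b₂) := by
    rw [baseChange, baseChange, map_b₂, map_b₂, ← f.commutes]
  have hb₄ : (W'⁄K).b₄ = f ((W'⁄F).b₄) := by
    rw [baseChange, baseChange, map_b₄, map_b₄, ← f.commutes]
  have hb₆ : (W'⁄K).b₆ = f ((W'⁄F).b₆) := by
    rw [baseChange, baseChange, map_b₆, map_b₆, ← f.commutes]
  rw [veluU, veluU, veluT_baseChange, hb₂, hb₄, hb₆]
  simp only [map_add, map_mul, map_pow, map_ofNat]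

theorem veluF4_map (Q : (W'⁄F).toAffine.Point) :
    veluF4 (W'⁄K) (Affine.Point.map f Q) = f (veluF4 (W'⁄F) Q) := by
  rcases Q with _ | ⟨x, y, h⟩
  · show veluF4 (W'⁄K) (Affine.Point.map f 0) = f (veluF4 (W'⁄F) 0)
    rw [map_zero, veluF4_zero, veluF4_zero, map_zero]
  · rw [Affine.Point.map_some, veluF4_some, veluF4_some, veluT_baseChange]

theorem veluF6_map (Q : (W'⁄F).toAffine.Point) :
    veluF6 (W'⁄K) (Affine.Point.map f Q) = f (veluF6 (W'⁄F) Q) := by
  rcases Q with _ | ⟨x, y, h⟩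
  · show veluF6 (W'⁄K) (Affine.Point.map f 0) = f (veluF6 (W'⁄F) 0)
    rw [map_zero, veluF6_zero, veluF6_zero, map_zero]
  · rw [Affine.Point.map_some, veluF6_some, veluF6_some, veluU_baseChange]

/-- **base change of `c₄'`**. -/
theorem veluC4_map (p : ℕ) (Q : (W'⁄F).toAffine.Point) :
    veluC4 (W'⁄K) p (Affine.Point.map f Q) = f (veluC4 (W'⁄F) p Q) := by
  have hc : (W'⁄K).c₄ = f ((W'⁄F).c₄) := by
    rw [baseChange, baseChange, map_c₄, map_c₄, ← f.commutes]
  rw [veluC4, veluC4, hc, map_add, map_mul, map_sum, map_ofNat]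
  congr 2
  refine Finset.sum_congr rfl fun k _ => ?_
  rw [← map_nsmul, veluF4_map]

/-- **base change of `c₆'`**. -/
theorem veluC6_map (p : ℕ) (Q : (W'⁄F).toAffine.Point) :
    veluC6 (W'⁄K) p (Affine.Point.map f Q) = f (veluC6 (W'⁄F) p Q) := by
  have hc : (W'⁄K).c₆ = f ((W'⁄F).c₆) := by
    rw [baseChange, baseChange, map_c₆, map_c₆, ← f.commutes]
  rw [veluC6, veluC6, hc, map_add, map_mul, map_sum, map_ofNat]
  congr 2
  refine Finset.sum_congr rfl fun k _ => ?_
  rw [← map_nsmul, veluF6_map]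

end BaseChange

end Fermat.Agent.GZ.Tate.Out
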